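/-
P-ES / Q-ES-1 (row 378, helper65): the norm of a finite separable extension as a product over
an explicit list of pairwise distinct embeddings into an arbitrary (not necessarily
algebraically closed) field.  Mathlib only.
-/
import Mathlib

set_option autoImplicit false
set_option linter.style.haveILetI false

noncomputable section

namespace Fermat.Agent.H65

/-- If `t : ι → (L →ₐ[K] Ω)` is an injective family of `K`-embeddings of a finite separable
extension `L / K` with `#ι = [L : K]`, then the norm is the product over the family. -/
theorem qes_algebraMap_norm_eq_prod {K L Ω ι : Type*} [Field K] [Field L] [Field Ω]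
    [Algebra K L] [Algebra K Ω] [FiniteDimensional K L] [Algebra.IsSeparable K L]
    [Fintype ι] (hcard : Fintype.card ι = Module.finrank K L)
    (t : ι → (L →ₐ[K] Ω)) (ht : Function.Injective t) (x : L) :
    algebraMap K Ω (Algebra.norm K x) = ∏ i, t i x := by
  let Ωb := AlgebraicClosure Ω
  let inc : Ω →ₐ[K] Ωb := IsScalarTower.toAlgHom K Ω Ωb
  have hincinj : Function.Injective inc := (algebraMap Ω Ωb).injective
  let T : ι → (L →ₐ[K] Ωb) := fun i => inc.comp (t i)
  have hT : Function.Injective T := by
    intro i j hij
    apply ht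
    ext y
    apply hincinj
    exact congrArg (fun f : L →ₐ[K] Ωb => f y) hij
  have hTbij : Function.Bijective T := by
    rw [Fintype.bijective_iff_injective_and_card]
    exact ⟨hT, by rw [hcard, AlgHom.card K L Ωb]⟩
  have h1 := Algebra.norm_eq_prod_embeddings K Ωb x
  have h2 : ∏ σ : L →ₐ[K] Ωb, σ x = ∏ i, T i x :=
    (Fintype.prod_bijective T hTbij (fun i => T i x) (fun σ => σ x) (fun _ => rfl)).symm
  rw [h2] at h1
  apply hincinj
  rw [map_prod]
  have h3 : inc (algebraMap K Ω (Algebra.norm K x)) = algebraMap K Ωb (Algebra.norm K x) :=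
    (IsScalarTower.algebraMap_apply K Ω Ωb _).symm
  rw [h3, h1]
  rfl

/-- Unbundled form: ring homomorphisms `a : K → L` (the extension), `ι₀ : K → Ω` (the base
embedding) and a family `t i : L → Ω` of ring homomorphisms extending `ι₀`. -/
theorem qes_norm_eq_prod_ringHom {K L Ω ι : Type*} [Field K] [Field L] [Field Ω] [CharZero K]
    (a : K →+* L) (ι₀ : K →+* Ω) [Fintype ι] (t : ι → (L →+* Ω))
    (hcomm : ∀ i, (t i).comp a = ι₀) (hinj : Function.Injective t)
    (hdeg : (letI := a.toAlgebra; Module.finrank K L) = Fintype.card ι)
    (hpos : 0 < Fintype.card ι) (x : L) :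
    ι₀ (letI := a.toAlgebra; Algebra.norm K x) = ∏ i, t i x := by
  letI := a.toAlgebra
  letI := ι₀.toAlgebra
  haveI : FiniteDimensional K L := Module.finite_of_finrank_pos (by rw [hdeg]; exact hpos)
  haveI : Algebra.IsSeparable K L := inferInstance
  let T : ι → (L →ₐ[K] Ω) := fun i =>
    { (t i) with
      commutes' := fun r => by
        have := congrArg (fun f : K →+* Ω => f r) (hcomm i)
        exact this }
  have hT : Function.Injective T := by
    intro i j hij
    apply hinj
    ext y
    exact congrArg (fun f : L →ₐ[K] Ω => f y) hij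
  exact qes_algebraMap_norm_eq_prod hdeg.symm T hT x

end Fermat.Agent.H65

end
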