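/-
P-ES / Q-ES-1 (row 378, helper65): `NormSeriesStatement N`, the `q`-expansion of the
multiplicative Hecke operator `Tm f = Norm_{F_{Nℓ} / α F_N} (β f)`:

  `(Tm f)(q^ℓ) = f(q^{ℓ²}) ∏_{b < ℓ} f(ζ^b q)`.

Proof: the `ℓ + 1` ring homomorphisms `F_{Nℓ} → ℚ̄((q))`
  `t_∞ = (q ↦ q^ℓ)`,  `t_b = (q ↦ ζ^b q) ∘ W`  (`W` the Atkin–Lehner automorphism, `b < ℓ`)
all restrict to `g ↦ g(q^ℓ)` on `α F_N`, and are pairwise distinct (look at the coefficient of
`q^{-1}` of the image of `j(q^ℓ)`).  Since `[F_{Nℓ} : α F_N] = ℓ + 1`, the norm is the product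
of the values of these embeddings.
-/
import Fermat.Agent.H36.ESE.TorsionInterfaces
import Fermat.Agent.H41.AtkinLehnerBar
import Fermat.Agent.H69.DegreeC
import Fermat.Agent.H65.EsC.DegreeAlpha
import Fermat.Agent.H65.QES.NormEmb

set_option autoImplicit false
set_option linter.style.haveILetI false

noncomputable section

open AlgebraicCurve IntermediateField ModularCurve
open scoped MatrixGroups

namespace Fermat.Agent.H65

/-- The degree of the degeneracy map `α` over `ℚ̄` is `ℓ + 1` for primes `ℓ ∤ N`. -/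
theorem qes_finrankAlong_heckeAlphaBar (N ℓ : ℕ) [NeZero N] [NeZero ℓ]
    (hℓ : ℓ.Prime) (hℓN : ¬ ℓ ∣ N) :
    finrankAlong (AlgebraicClosure ℚ) (heckeAlphaBar (AlgebraicClosure ℚ) N ℓ) = ℓ + 1 := by
  obtain ⟨-, h1⟩ := Fermat.Agent.H69.DegC.finrank_bar_eq N
  obtain ⟨-, h2⟩ := Fermat.Agent.H69.DegC.finrank_bar_eq (N * ℓ)
  rw [finrank_adjoin_coe_eq_relfinrank] at h1 h2
  have hle : modularFunctionFieldBar N ≤ modularFunctionFieldBar (N * ℓ) := by
    intro x hx
    exact (heckeAlphaBar (AlgebraicClosure ℚ) N ℓ ⟨x, hx⟩).2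
  have hα : heckeAlphaBar (AlgebraicClosure ℚ) N ℓ = IntermediateField.inclusion hle := rfl
  rw [hα, finrankAlong_inclusion_eq_relfinrank]
  have hJ : (AlgebraicClosure ℚ)⟮((Fermat.Agent.H23.jBar N : ↥(modularFunctionFieldBar N)) :
      LaurentSeries (AlgebraicClosure ℚ))⟯ ≤ modularFunctionFieldBar N := by
    rw [IntermediateField.adjoin_le_iff]
    rintro _ rfl
    exact (Fermat.Agent.H23.jBar N).2
  have hmul := IntermediateField.relfinrank_mul_relfinrank hJ hle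
  have hj : ((Fermat.Agent.H23.jBar (N * ℓ) : ↥(modularFunctionFieldBar (N * ℓ))) :
      LaurentSeries (AlgebraicClosure ℚ))
      = ((Fermat.Agent.H23.jBar N : ↥(modularFunctionFieldBar N)) :
        LaurentSeries (AlgebraicClosure ℚ)) := rfl
  rw [hj] at h2
  rw [h1, h2] at hmul
  have hi1 : Nat.card (SL(2, ℤ) ⧸ CongruenceSubgroup.Gamma0 N) = dedekindPsi N :=
    Fermat.Agent.H57.index_Gamma0 N
  have hi2 : Nat.card (SL(2, ℤ) ⧸ CongruenceSubgroup.Gamma0 (N * ℓ))
      = dedekindPsi (N * ℓ) :=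
    Fermat.Agent.H57.index_Gamma0 (N * ℓ)
  rw [hi1, hi2, Fermat.Agent.H57.dedekindPsi_mul_prime_of_not_dvd (NeZero.ne N) hℓ hℓN,
    mul_comm] at hmul
  have hpos : 0 < dedekindPsi N := by
    rw [← Fermat.Agent.H57.index_Gamma0 N]
    have : (CongruenceSubgroup.Gamma0 N).FiniteIndex := inferInstance
    exact Nat.pos_of_ne_zero (Subgroup.FiniteIndex.index_ne_zero)
  exact Nat.eq_of_mul_eq_mul_right hpos hmul

/-- The substitution `q ↦ ξ q` with `ξ^ℓ = 1` fixes the series in `q^ℓ`. -/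
theorem qes_twist_qExpand {k : Type*} [Field k] (ℓ : ℕ) [NeZero ℓ] (ξ : kˣ) (hξ : ξ ^ ℓ = 1)
    (g : LaurentSeries k) :
    Fermat.Agent.H27.twist ξ (qExpand k ℓ g) = qExpand k ℓ g := by
  ext n
  rw [Fermat.Agent.H27.twist_coeff]
  by_cases hn : (ℓ : ℤ) ∣ n
  · obtain ⟨m, rfl⟩ := hn
    have h1 : (ξ ^ ((ℓ : ℤ) * m) : kˣ) = 1 := by
      rw [zpow_mul, zpow_natCast, hξ, one_zpow]
    rw [h1, Units.val_one, one_mul]
  · rw [qExpand_coeff_of_not_dvd ℓ g hn, mul_zero]

/-- **Q-ES-1.**  The `q`-expansion of the multiplicative Hecke operator. -/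
theorem normSeriesStatement (N : ℕ) [NeZero N] : Fermat.Agent.H36.NormSeriesStatement N := by
  intro ℓ _ hℓ hℓN ζ hζ f
  have hcop : Nat.Coprime N ℓ := ((Nat.Prime.coprime_iff_not_dvd hℓ).mpr hℓN).symm
  obtain ⟨W, hWα, hWβ⟩ := Fermat.Agent.H41.exists_atkinLehnerBar N ℓ hcop
  have hζu : IsPrimitiveRoot ζ ℓ := IsPrimitiveRoot.coe_units_iff.mp hζ
  -- the base embedding `g ↦ g(q^ℓ)` and the `ℓ + 1` embeddings of the top field
  let a : ↥(modularFunctionFieldBar N) →+* ↥(modularFunctionFieldBar (N * ℓ)) :=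
    (heckeAlphaBar (AlgebraicClosure ℚ) N ℓ).toRingHom
  let ι₀ : ↥(modularFunctionFieldBar N) →+* LaurentSeries (AlgebraicClosure ℚ) :=
    (qExpand (AlgebraicClosure ℚ) ℓ).comp (modularFunctionFieldBar N).val.toRingHom
  let t : Option (Fin ℓ) →
      (↥(modularFunctionFieldBar (N * ℓ)) →+* LaurentSeries (AlgebraicClosure ℚ)) := fun x =>
    match x with
    | none => (qExpand (AlgebraicClosure ℚ) ℓ).comp (modularFunctionFieldBar (N * ℓ)).val.toRingHom
    | some b => ((Fermat.Agent.H27.twist (ζ ^ (b : ℕ))).comp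
        (modularFunctionFieldBar (N * ℓ)).val.toRingHom).comp
        (W : ↥(modularFunctionFieldBar (N * ℓ)) →+* ↥(modularFunctionFieldBar (N * ℓ)))
  have htnone : ∀ y : ↥(modularFunctionFieldBar (N * ℓ)),
      t none y = qExpand (AlgebraicClosure ℚ) ℓ (y : LaurentSeries (AlgebraicClosure ℚ)) :=
    fun _ => rfl
  have htsome : ∀ (b : Fin ℓ) (y : ↥(modularFunctionFieldBar (N * ℓ))),
      t (some b) y = Fermat.Agent.H27.twist (ζ ^ (b : ℕ))
        ((W y : ↥(modularFunctionFieldBar (N * ℓ))) : LaurentSeries (AlgebraicClosure ℚ)) :=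
    fun _ _ => rfl
  have hcomm : ∀ x, (t x).comp a = ι₀ := by
    intro x
    ext1 g
    rcases x with _ | b
    · show t none (heckeAlphaBar (AlgebraicClosure ℚ) N ℓ g) = _
      rw [htnone, coe_heckeAlphaBar]
      rfl
    · show t (some b) (heckeAlphaBar (AlgebraicClosure ℚ) N ℓ g) = _
      rw [htsome, hWα, coe_heckeBetaBar, qes_twist_qExpand]
      · rfl
      · rw [← pow_mul, mul_comm, pow_mul, hζu.pow_eq_one, one_pow]
  -- values on the test element `β j = j(q^ℓ)`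
  have hℓ2 : ¬ ((ℓ : ℤ) ∣ (-1 : ℤ)) := by
    intro h
    have h1 : (ℓ : ℤ) ∣ 1 := (dvd_neg.mp h)
    have h2 : ℓ ∣ 1 := by exact_mod_cast h1
    exact hℓ.one_lt.ne' (Nat.dvd_one.mp h2)
  have hvnone : (t none (heckeBetaBar (AlgebraicClosure ℚ) N ℓ (Fermat.Agent.H23.jBar N))).coeff
      (-1 : ℤ) = 0 := by
    rw [htnone]
    exact qExpand_coeff_of_not_dvd ℓ _ hℓ2
  have hvsome : ∀ b : Fin ℓ,
      (t (some b) (heckeBetaBar (AlgebraicClosure ℚ) N ℓ (Fermat.Agent.H23.jBar N))).coeff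
        (-1 : ℤ) = (((ζ ^ (b : ℕ)) ^ (-1 : ℤ) : (AlgebraicClosure ℚ)ˣ) : AlgebraicClosure ℚ) := by
    intro b
    rw [htsome, hWβ, coe_heckeAlphaBar, Fermat.Agent.H27.twist_coeff]
    have hj : ((Fermat.Agent.H23.jBar N : ↥(modularFunctionFieldBar N)) :
        LaurentSeries (AlgebraicClosure ℚ)).coeff (-1 : ℤ) = 1 := by
      show (coeffEmb (AlgebraicClosure ℚ) jq).coeff (-1 : ℤ) = 1
      rw [coeffEmb_coeff, coeff_jq_neg_one, map_one]
    rw [hj, mul_one]
  have hinj : Function.Injective t := by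
    intro x y hxy
    have hval := congrArg (fun s : ↥(modularFunctionFieldBar (N * ℓ)) →+*
      LaurentSeries (AlgebraicClosure ℚ) =>
      (s (heckeBetaBar (AlgebraicClosure ℚ) N ℓ (Fermat.Agent.H23.jBar N))).coeff (-1 : ℤ)) hxy
    beta_reduce at hval
    rcases x with _ | b <;> rcases y with _ | b'
    · rfl
    · exfalso
      rw [hvnone, hvsome] at hval
      exact Units.ne_zero _ hval.symm
    · exfalso
      rw [hvnone, hvsome] at hval
      exact Units.ne_zero _ hval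
    · rw [hvsome, hvsome] at hval
      have h1 : (ζ ^ (b : ℕ)) ^ (-1 : ℤ) = (ζ ^ (b' : ℕ)) ^ (-1 : ℤ) := Units.ext hval
      have h2 : ζ ^ (b : ℕ) = ζ ^ (b' : ℕ) := by
        have := congrArg (fun u : (AlgebraicClosure ℚ)ˣ => u⁻¹) h1
        simpa using this
      have h3 : (b : ℕ) = (b' : ℕ) := hζu.pow_inj b.2 b'.2 h2
      exact congrArg some (Fin.ext h3)
  have hdeg : (letI := a.toAlgebra; Module.finrank ↥(modularFunctionFieldBar N)
      ↥(modularFunctionFieldBar (N * ℓ))) = Fintype.card (Option (Fin ℓ)) := by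
    rw [Fintype.card_option, Fintype.card_fin]
    exact qes_finrankAlong_heckeAlphaBar N ℓ hℓ hℓN
  have hpos : 0 < Fintype.card (Option (Fin ℓ)) := by
    rw [Fintype.card_option]
    exact Nat.succ_pos _
  have key := qes_norm_eq_prod_ringHom a ι₀ t hcomm hinj hdeg hpos
    (heckeBetaBar (AlgebraicClosure ℚ) N ℓ f)
  rw [Fintype.prod_option] at key
  rw [htnone, coe_heckeBetaBar] at key
  have hprod : ∏ b : Fin ℓ, t (some b) (heckeBetaBar (AlgebraicClosure ℚ) N ℓ f)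
      = ∏ b ∈ Finset.range ℓ, Fermat.Agent.H27.twist (ζ ^ b)
          (f : LaurentSeries (AlgebraicClosure ℚ)) := by
    rw [← Fin.prod_univ_eq_prod_range (fun b => Fermat.Agent.H27.twist (ζ ^ b)
          (f : LaurentSeries (AlgebraicClosure ℚ))) ℓ]
    refine Finset.prod_congr rfl fun b _ => ?_
    rw [htsome, hWβ, coe_heckeAlphaBar]
  rw [hprod] at key
  exact key

end Fermat.Agent.H65

end
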